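import Fermat.Agent.S59.TW.H658.CuspInst
import Fermat.Agent.S59.TW.H564.GenNil

/-!
# S59 / cell TW, layer 3 (AUT), leaf MODQ (helper658, with helper564)

`modQ : Aut.ModQStatement`, VERBATIM: for a Taylor–Wiles set `qv` the Hecke ring
`T_Q = P_Q.T = heckeLocal (N₀ ∏ q_j²)` acts on the localisation `V ⊆ X_{K_Q}(𝒪)` through the
twisted operators `⟨ℓ⟩^h T_ℓ`, `p^{m_j} ∣ 2 h + 1`.

* ring homomorphism `heckeAlgebra → End_𝒪 V`: `H658.exists_heckeAction_isQPart_of_tw`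
  (Eichler–Shimura for `K_Q` + nebentypus decomposition + twist embedding of helper564 + base
  change `ℤ → 𝒪` + CUSP);
* extension to the local ring: `H564.exists_locAction` (GENNIL + LOCACT, helper564).
-/

set_option autoImplicit false
set_option linter.unusedSectionVars false
set_option linter.style.haveILetI false

noncomputable section

namespace Fermat.Agent.S59.TW.Aut.H658

open CongruenceSubgroup IsLocalRing Polynomial
open Fermat.Agent.S59.Arch Fermat.Agent.S59.TW.H959 Fermat.Agent.S59.TW.H653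
open Fermat.Agent.S59.TW.Aut Fermat.Agent.S59 Fermat.Agent.S59.TW
open scoped MatrixGroups

section Pow

variable (p N₀ : ℕ) {r : ℕ} (qv : Fin r → ℕ)

/-- `Δ_Q` is killed by `p^a`, `a = ∑ v_p(q_j - 1)`. -/
theorem prime_pow_mem_powSub (x : ∀ j : Fin r, (ZMod (qv j))ˣ) :
    x ^ p ^ (∑ j, padicValNat p (qv j - 1)) ∈ powSub p qv := by
  rw [powSub, Subgroup.mem_pi]
  intro j _
  obtain ⟨c, hc⟩ := pow_dvd_pow p (Finset.single_le_sum
    (f := fun j => padicValNat p (qv j - 1)) (fun _ _ => Nat.zero_le _) (Finset.mem_univ j))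
  refine ⟨x j ^ c, ?_⟩
  rw [powMonoidHom_apply, Pi.pow_apply, hc, pow_mul']

/-- The diamond operators of `K_Q` have `p`-power order. -/
theorem diamondU_prime_pow [NeZero (bLevel N₀ qv)] {A : Type} [AddCommGroup A]
    (u : (ZMod (bLevel N₀ qv))ˣ) (x : Additive (KQ p N₀ qv) →+ A) :
    diamondU (isMid_KQ p N₀ qv) (u ^ p ^ (∑ j, padicValNat p (qv j - 1))) x = x := by
  refine diamondU_of_chi p N₀ qv ?_ x
  rw [map_pow]
  show (QuotientGroup.mk' (powSub p qv)) (red N₀ qv u) ^ _ = 1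
  rw [← map_pow]
  exact (QuotientGroup.eq_one_iff _).mpr (prime_pow_mem_powSub p qv _)

end Pow

/-- **AUT leaf MODQ.** -/
theorem modQ : ModQStatement := by
  intro p _ 𝒪 _ _ _ _ _ _ ρbar Smin h t _ _ P₀ n r qv hq _ PQ res _ α _ V hV
  have hp : p.Prime := Fact.out
  have hqi : Function.Injective qv := hq.1
  have hqp : ∀ i, (qv i).Prime ∧ qv i ∉ Smin := fun i => ⟨(hq.2.1 i).1, (hq.2.1 i).2.1⟩
  obtain ⟨e, he⟩ := H658.exists_isHalf p qv (hp.odd_of_ne_two h.hp2)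
  obtain ⟨Ψ, hΨ⟩ := H658.exists_heckeAction_isQPart_of_tw h hq PQ α he V hV
  haveI : NeZero (bLevel (wilesLevel p t Smin Smin) qv) :=
    ⟨H658.bLevel_ne_zero p t Smin qv h.hSmin fun i => (hqp i).1⟩
  haveI : Fact (CuspForm.HasIntegralStructure
      (wilesLevel p t Smin (Smin ∪ Finset.univ.image qv)) 2) := PQ.integral
  have hMN : bLevel (wilesLevel p t Smin Smin) qv ∣
      wilesLevel p t Smin (Smin ∪ Finset.univ.image qv) :=
    (Dvd.intro _ rfl).trans (H658.bLevel_mul_prod_dvd p t Smin qv hqi fun i => (hqp i).2)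
  obtain ⟨a, ha⟩ := H564.exists_locAction (θ := PQ.θ)
    (isMid_KQ p (wilesLevel p t Smin Smin) qv) hp h.hp2 h.hp𝒪 hMN
    (fun q hq' hqd => H658.mem_of_dvd_wilesLevel_union p t Smin qv h.hpSmin h.hSmin hqi hqp
      hq' hqd)
    hV (fun ℓ hℓ hℓN hℓS c hc => ⟨hℓ, hℓN, hℓS, hc⟩)
    (fun ℓ => uOf (bLevel (wilesLevel p t Smin Smin) qv) ℓ ^ e)
    (∑ j, padicValNat p (qv j - 1))
    (fun ℓ x => diamondU_prime_pow p (wilesLevel p t Smin Smin) qv _ x)
    Ψ (fun ℓ _ hℓN hℓS v => hΨ ℓ Fact.out hℓN hℓS v)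
  refine ⟨e, a, he, ?_⟩
  intro ℓ hℓ hℓN hℓS v
  rw [PQ.hπ, ha, hΨ ℓ hℓ hℓN hℓS v]

end Fermat.Agent.S59.TW.Aut.H658
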